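import Fermat.Agent.RED.ES.Norm
import Fermat.Agent.RED.TorsESAbs
import Fermat.Agent.S36.Kum.Level

/-!
# HK / [GAMMA] (G1) : the `q`-expansion of the norm along `B : f(q) ↦ f(q ^ c)`

`B = heckeBetaBar Kb N c : F_N → F_{N c}`.  If `deg B = c` (e.g. `c = 4`, `2 ∣ N`) then the `c` maps
`u ↦ u(ζ^b q)` are all the embeddings of `F_{N c}` over `B F_N`, so

  `(N_B u)(q ^ c) = ∏_{b < c} u(ζ^b q)`,     i.e.   `B (N_B u) = ∏_{b < c} u(ζ^b q)`.
-/

set_option autoImplicit false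
set_option linter.unusedSectionVars false
set_option linter.style.haveILetI false

noncomputable section

open ModularCurve AlgebraicCurve

namespace Fermat.Agent.HK

open Fermat.Agent.RED hiding Kb
open Fermat.Agent.RED.ES Fermat.Agent.S24
open Fermat.Agent.GAL.HeckeComm

variable (N c : ℕ) [NeZero N] [NeZero c]

/-- the embedding `u ↦ u(ζ^b q)` over `B F_N`. -/
def gamEmb (ζ : Kbˣ) (hζ : ζ ^ c = 1) (b : ℕ) :
    letI := algebraAlong (heckeBetaBar Kb N c)
    letI := algLauBar N c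
    FN (N * c) →ₐ[FN N] LauBar :=
  letI := algebraAlong (heckeBetaBar Kb N c)
  letI := algLauBar N c
  AlgHom.mk (lauIncl.comp ((rotR (ζ ^ b)).comp (modularFunctionFieldBar (N * c)).val.toRingHom))
    (fun a => by
      have h1 : algebraMap (FN N) (FN (N * c)) = (heckeBetaBar Kb N c).toRingHom :=
        RingHom.algebraMap_toAlgebra _
      have h2 : algebraMap (FN N) LauBar = lauIncl.comp (toLau c N) :=
        RingHom.algebraMap_toAlgebra _
      rw [h1, h2, RingHom.toFun_eq_coe, RingHom.comp_apply, RingHom.comp_apply, RingHom.comp_apply,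
        toLau_apply, AlgHom.toRingHom_eq_coe, RingHom.coe_coe]
      congr 1
      show rotR (ζ ^ b) ((heckeBetaBar Kb N c a : FN (N * c)) : LaurentSeries Kb) = _
      rw [coe_heckeBetaBar, rotR_qExpand c _ (by rw [← pow_mul, mul_comm, pow_mul, hζ, one_pow])])

theorem gamEmb_apply (ζ : Kbˣ) (hζ : ζ ^ c = 1) (b : ℕ) (u : FN (N * c)) :
    gamEmb N c ζ hζ b u = lauIncl (rotR (ζ ^ b) (u : LaurentSeries Kb)) := rfl

/-- **(G1)** the `q`-expansion of `N_B u`. -/
theorem qExpand_normAlong_beta (ζ : Kbˣ) (hζ : IsPrimitiveRoot ζ c)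
    (hdeg : finrankAlong Kb (heckeBetaBar Kb N c) = c) (u : FN (N * c)) :
    qExpand Kb c ((TorsES.normAlong (heckeBetaBar Kb N c) u : FN N) : LaurentSeries Kb)
      = ∏ b ∈ Finset.range c, rotR (ζ ^ b) (u : LaurentSeries Kb) := by
  unfold TorsES.normAlong
  letI := algebraAlong (heckeBetaBar Kb N c)
  letI := algLauBar N c
  haveI : Module.Finite (FN N) (FN (N * c)) := finiteAlong_any (heckeBetaBar Kb N c)
  apply lauIncl.injective
  have h1 := Algebra.norm_eq_prod_embeddings (FN N) LauBar u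
  have h2 : algebraMap (FN N) LauBar = lauIncl.comp (toLau c N) :=
    RingHom.algebraMap_toAlgebra _
  rw [h2, RingHom.comp_apply, toLau_apply] at h1
  have hbij : Function.Bijective (fun i : Fin c => gamEmb N c ζ hζ.pow_eq_one (i : ℕ)) := by
    rw [Fintype.bijective_iff_injective_and_card]
    refine ⟨?_, ?_⟩
    · intro i i' hii
      have h3 := DFunLike.congr_fun hii (jF (N * c))
      rw [gamEmb_apply, gamEmb_apply] at h3
      have h4 := congrArg (fun z => HahnSeries.coeff z (-1)) (lauIncl.injective h3)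
      simp only [rotR_coeff, ES.coe_jF, coeff_jqModC_neg_one, mul_one] at h4
      have h5 : (ζ ^ (i : ℕ)) ^ (-1 : ℤ) = (ζ ^ (i' : ℕ)) ^ (-1 : ℤ) := Units.ext h4
      rw [zpow_neg_one, zpow_neg_one, inv_inj] at h5
      exact Fin.ext (hζ.pow_inj i.2 i'.2 h5)
    · rw [AlgHom.card, Fintype.card_fin]
      exact hdeg.symm
  refine h1.trans ?_
  rw [← hbij.prod_comp (fun σ : FN (N * c) →ₐ[FN N] LauBar => σ u), map_prod,
    ← Fin.prod_univ_eq_prod_range
      (fun b => lauIncl (rotR (ζ ^ b) (u : LaurentSeries Kb))) c]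
  exact Finset.prod_congr rfl fun b _ => gamEmb_apply N c ζ hζ.pow_eq_one b u

/-- **(G1)** `B (N_B u) = ∏_b u(ζ^b q)`. -/
theorem coe_beta_normAlong_beta (ζ : Kbˣ) (hζ : IsPrimitiveRoot ζ c)
    (hdeg : finrankAlong Kb (heckeBetaBar Kb N c) = c) (u : FN (N * c)) :
    ((heckeBetaBar Kb N c (TorsES.normAlong (heckeBetaBar Kb N c) u) : FN (N * c)) :
      LaurentSeries Kb) = ∏ b ∈ Finset.range c, rotR (ζ ^ b) (u : LaurentSeries Kb) := by
  rw [coe_heckeBetaBar, qExpand_normAlong_beta N c ζ hζ hdeg]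

/-! ### the degree of `B` -/

theorem finrankAlong_castLevel {M M' : ℕ} [NeZero M] [NeZero M'] (h : M = M') :
    finrankAlong Kb (castLevel h) = 1 := by
  subst h
  have h1 : (castLevel (rfl : M = M)).comp (castLevel (rfl : M = M)) = castLevel (rfl : M = M) := by
    refine AlgHom.ext fun x => Subtype.ext ?_
    rw [AlgHom.comp_apply, coe_castLevel, coe_castLevel]
  have h2 := congrArg (finrankAlong Kb) h1
  rw [S36.Kum.finrankAlong_comp'] at h2
  have h3 := S36.Kum.finrankAlong_pos_any (castLevel (rfl : M = M))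
  exact Nat.eq_of_mul_eq_mul_left h3 (by rw [h2, mul_one])

/-- `deg (q ↦ q ^ (ℓ ℓ')) = ℓ ℓ'` for primes `ℓ, ℓ' ∣ N`. -/
theorem finrankAlong_beta_mul (ℓ ℓ' : ℕ) [NeZero ℓ] [NeZero ℓ'] (hℓ : ℓ.Prime) (hℓ' : ℓ'.Prime)
    (h : ℓ ∣ N) (h' : ℓ' ∣ N) :
    finrankAlong Kb (heckeBetaBar Kb N (ℓ * ℓ')) = ℓ * ℓ' := by
  have h1 : (castLevel (mul_assoc N ℓ ℓ')).comp
      ((heckeBetaBar Kb (N * ℓ) ℓ').comp (heckeBetaBar Kb N ℓ)) = heckeBetaBar Kb N (ℓ * ℓ') := by
    refine AlgHom.ext fun x => Subtype.ext ?_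
    rw [AlgHom.comp_apply, AlgHom.comp_apply, coe_castLevel, coe_heckeBetaBar, coe_heckeBetaBar,
      coe_heckeBetaBar, qExpand_qExpand]
    exact ModularCurve.qExpand_congr (mul_comm _ _) _
  rw [← h1, S36.Kum.finrankAlong_comp', S36.Kum.finrankAlong_comp', finrankAlong_castLevel, mul_one,
    S36.Kum.finrankAlong_beta_eq_alpha' _ _ hℓ, S36.Kum.finrankAlong_beta_eq_alpha' _ _ hℓ',
    finrankAlong_alpha_of_dvd N ℓ hℓ h, finrankAlong_alpha_of_dvd (N * ℓ) ℓ' hℓ' (h'.mul_right ℓ)]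

theorem finrankAlong_beta_four (h : 2 ∣ N) : finrankAlong Kb (heckeBetaBar Kb N 4) = 4 :=
  finrankAlong_beta_mul N 2 2 Nat.prime_two Nat.prime_two h h

end Fermat.Agent.HK
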