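import Fermat.Agent.HK.Good
import Fermat.Agent.HK.GammaNorm
import Fermat.Agent.RIB.Deg.Fun

/-!
# HK / Gamma : [GAMMA] (G2) : the relation `Rel` is compatible with every "integral operator", in particular with `Γ = B^* B_*`

`M` a rigid level, `A ∣ ℓ`, `ℓ ∤ M`, `k` the residue field of `A`, `Fb = modularFunctionFieldFullC k M`.

* `IsIntOp A ΦD Op C` : `ΦD : Div F_M →+ Div F_M` is positive, bounded by `C` on the places, and has a formal avatar `Op w z` on the Laurent series
  over `k` (functional, multiplicative) : for an integral `q`-series `y₀` of `F_M` of non zero reduction, `ΦD (div ι y₀) = div ι z₀` with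
  `Op (π y₀) (π z₀)`.
* `IsIntOp.exists_div_lift`, `IsIntOp.mapDomain_eq_zero_of_principal`, `IsIntOp.mapDomain_eq_zero_of_degree` : as in `HK/Good.lean`, `MAZ/Geo/HeqNorm.lean`.
* `Rel.op` : `Rel n w y → ∃ z, Op w z ∧ Rel n z (φJ y)` for every `φJ : J₀(M) →+ J₀(M)` induced by `ΦD`.
* `FormalG c ζ w z` : `z = ∏_{b < c} w(ζ^b q)`.
* `Rel.gamma` : `φ : F_N → F_M` with `φ (N_φ u) = ∏_b u(ζ^b q)` : `Rel n w y → ∃ z, FormalG c _ w z ∧ Rel n z (φ^* φ_* y)`.
* `Rel.gamma_beta`, `Rel.gamma_four` : the case `φ = B = heckeBetaBar Kb N c`, `M = N c`.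
-/

set_option autoImplicit false
set_option linter.unusedSectionVars false
set_option synthInstance.maxHeartbeats 400000

open AlgebraicCurve ModularCurve
open Fermat.Agent.S24 Fermat.Agent.GAL.HeckeInputs

namespace Fermat.Agent.HK

open Fermat.Agent.RED hiding Kb GQ
open Fermat.Agent.RED.ES Fermat.Agent.RED.Gauss

noncomputable section

section Op

variable {ℓ : ℕ} [Fact ℓ.Prime] {M : ℕ} [NeZero M] (A : ValuationSubring Kb)

local notation "kA" => IsLocalRing.ResidueField A
local notation "πA" => IsLocalRing.residue A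
local notation "FbA" => modularFunctionFieldFullC (IsLocalRing.ResidueField A) M

/-- an operator on the divisors of `F_M`, positive, bounded, with a formal avatar on the `q`-expansions over the residue field. -/
structure IsIntOp (ΦD : Divisor Kb (FN M) →+ Divisor Kb (FN M))
    (Op : LaurentSeries kA → LaurentSeries kA → Prop) (C : ℤ) : Prop where
  nonneg : ∀ P, 0 ≤ ΦD (Finsupp.single P 1)
  cnt_le : ∀ P, cnt (ΦD (Finsupp.single P 1)) ≤ C
  unique : ∀ {w z z' : LaurentSeries kA}, Op w z → Op w z' → z = z'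
  ne_zero : ∀ {w z : LaurentSeries kA}, Op w z → w ≠ 0 → z ≠ 0
  div : ∀ {w z w' z' : LaurentSeries kA}, Op w z → Op w' z' → Op (w / w') (z / z')
  lift : ∀ (y₀ : LaurentSeries A) (hy : coeffMap A.subtype y₀ ∈ modularFunctionFieldBar M),
    coeffMap πA y₀ ≠ 0 →
    ∃ (z₀ : LaurentSeries A) (hz : coeffMap A.subtype z₀ ∈ modularFunctionFieldBar M),
      (∀ D : Divisor Kb (FN M), (∀ P, D P = P.ord (⟨_, hy⟩ : FN M)) →
        ∀ P, ΦD D P = P.ord (⟨_, hz⟩ : FN M)) ∧
      Op (coeffMap πA y₀) (coeffMap πA z₀)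

variable {A}
variable {ΦD : Divisor Kb (FN M) →+ Divisor Kb (FN M)}
  {Op : LaurentSeries (IsLocalRing.ResidueField A) → LaurentSeries (IsLocalRing.ResidueField A) → Prop}
  {C : ℤ}
variable (hA : A.LiesOverPrime ℓ) (hℓM : ¬ ℓ ∣ M)

include hA hℓM in
set_option maxHeartbeats 1600000 in
/-- a principal divisor of `F_M` lifting `div w`, together with the reduction of its image under `ΦD`. -/
theorem IsIntOp.exists_div_lift (H : IsIntOp A ΦD Op C)
    {r : Place Kb (FN M) → Place kA FbA} (hr : IsPlaceReductionAlong A πA M r)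
    (w : FbA) (hw : w ≠ 0) :
    ∃ D : Divisor Kb (FN M), D.IsPrincipal ∧ (∀ Q, Finsupp.mapDomain r D Q = Q.ord w) ∧
      ∃ z : FbA, z ≠ 0 ∧ Op (w : LaurentSeries kA) (z : LaurentSeries kA) ∧
        ∀ Q, Finsupp.mapDomain r (ΦD D) Q = Q.ord z := by
  have := charP_residueField A hA
  have hπ : Function.Surjective πA := IsLocalRing.residue_surjective
  have hcore := (exists_isCoreExt M ℓ hℓM).choose_spec
  obtain ⟨a, b, ha, hb, ha0, hb0, hrel⟩ := exists_integral_lift M A hA hℓM w hw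
  have hmem : ∀ y : LaurentSeries A, coeffMap A.subtype y ∈ modularFunctionFieldBar M →
      coeffMap πA y ∈ FbA := fun y hy =>
    coeffMap_mem_fullC_of_integral πA hπ (card_Q_pos M) hcore y hy
  have hinj : ∀ y : LaurentSeries A, coeffMap πA y ≠ 0 →
      ∀ hy : coeffMap A.subtype y ∈ modularFunctionFieldBar M,
        (⟨coeffMap A.subtype y, hy⟩ : FN M) ≠ 0 := by
    intro y hy0 hy h0
    have h1 : coeffMap A.subtype y = 0 := congrArg Subtype.val h0
    have h2 : y = 0 := Gauss.iota_injective A (by rw [map_zero]; exact h1)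
    exact hy0 (by rw [h2, map_zero])
  set fa : FN M := ⟨coeffMap A.subtype a, ha⟩ with hfa
  set fb : FN M := ⟨coeffMap A.subtype b, hb⟩ with hfb
  have hfa0 : fa ≠ 0 := hinj a ha0 ha
  have hfb0 : fb ≠ 0 := hinj b hb0 hb
  obtain ⟨Da, hDa, -⟩ := HasPrincipalDivisors.exists_divisor (K := Kb) fa hfa0
  obtain ⟨Db, hDb, -⟩ := HasPrincipalDivisors.exists_divisor (K := Kb) fb hfb0
  set ab : FbA := ⟨coeffMap πA a, hmem a ha⟩ with hab
  set bb : FbA := ⟨coeffMap πA b, hmem b hb⟩ with hbb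
  have hab0 : ab ≠ 0 := fun h => ha0 (congrArg Subtype.val h)
  have hbb0 : bb ≠ 0 := fun h => hb0 (congrArg Subtype.val h)
  have hwab : w * bb = ab := Subtype.ext hrel
  have hra : ∀ Q, Finsupp.mapDomain r Da Q = Q.ord ab := hr.2 a ha _ ha0 Da hDa
  have hrb : ∀ Q, Finsupp.mapDomain r Db Q = Q.ord bb := hr.2 b hb _ hb0 Db hDb
  have hsub : ∀ X Y : Divisor Kb (FN M), Finsupp.mapDomain r (X - Y) =
      Finsupp.mapDomain r X - Finsupp.mapDomain r Y :=
    fun X Y => map_sub (Finsupp.mapDomain.addMonoidHom r) X Y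
  obtain ⟨za, hzaF, hza, hza'⟩ := H.lift a ha ha0
  obtain ⟨zb, hzbF, hzb, hzb'⟩ := H.lift b hb hb0
  have hza0 : coeffMap πA za ≠ 0 := H.ne_zero hza' ha0
  have hzb0 : coeffMap πA zb ≠ 0 := H.ne_zero hzb' hb0
  have hTa := hr.2 za hzaF (hmem za hzaF) hza0 (ΦD Da) (hza Da hDa)
  have hTb := hr.2 zb hzbF (hmem zb hzbF) hzb0 (ΦD Db) (hzb Db hDb)
  set zab : FbA := ⟨coeffMap πA za, hmem za hzaF⟩ with hzab
  set zbb : FbA := ⟨coeffMap πA zb, hmem zb hzbF⟩ with hzbb
  have hzab0 : zab ≠ 0 := fun h => hza0 (congrArg Subtype.val h)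
  have hzbb0 : zbb ≠ 0 := fun h => hzb0 (congrArg Subtype.val h)
  refine ⟨Da - Db, ⟨fa / fb, div_ne_zero hfa0 hfb0, fun v => ?_⟩, fun Q => ?_,
    zab / zbb, div_ne_zero hzab0 hzbb0, ?_, fun Q => ?_⟩
  · rw [Finsupp.sub_apply, hDa, hDb, div_eq_mul_inv, v.ord_mul hfa0 (inv_ne_zero hfb0),
      Place.ord_inv]
    ring
  · rw [hsub, Finsupp.sub_apply, hra, hrb, ← hwab, Q.ord_mul hw hbb0]
    ring
  · have e1 : (w : LaurentSeries kA) = coeffMap πA a / coeffMap πA b := (eq_div_iff hb0).2 hrel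
    have e2 : ((zab / zbb : FbA) : LaurentSeries kA) = coeffMap πA za / coeffMap πA zb := rfl
    rw [e1, e2]
    exact H.div hza' hzb'
  · rw [map_sub, hsub, Finsupp.sub_apply, hTa, hTb, div_eq_mul_inv,
      Q.ord_mul hzab0 (inv_ne_zero hzbb0), Place.ord_inv]
    ring

include hA hℓM in
set_option maxHeartbeats 1600000 in
/-- `r_* ΦD (div f) = 0` if `r_* (div f) = 0`. -/
theorem IsIntOp.mapDomain_eq_zero_of_principal (H : IsIntOp A ΦD Op C)
    {r : Place Kb (FN M) → Place kA FbA} (hr : IsPlaceReductionAlong A πA M r)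
    {D : Divisor Kb (FN M)} (hD : D.IsPrincipal)
    (h0 : Finsupp.mapDomain r D = 0) : Finsupp.mapDomain r (ΦD D) = 0 := by
  have := charP_residueField A hA
  have := isAlgClosed_residueField A
  have hπ : Function.Surjective πA := IsLocalRing.residue_surjective
  have hcore := (exists_isCoreExt M ℓ hℓM).choose_spec
  obtain ⟨f, hf0, hDf⟩ := hD
  have hf0' : (f : LaurentSeries Kb) ≠ 0 := fun h0 => hf0 (Subtype.ext h0)
  obtain ⟨c, a, b, hc, ha, hb, ha0, hb0, hrel⟩ :=
    exists_integral_quotient πA hπ (card_Q_pos M) hcore (f : LaurentSeries Kb) f.2 hf0'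
  have hmem : ∀ y : LaurentSeries A, coeffMap A.subtype y ∈ modularFunctionFieldBar M →
      coeffMap πA y ∈ FbA := fun y hy =>
    coeffMap_mem_fullC_of_integral πA hπ (card_Q_pos M) hcore y hy
  have hinj : ∀ y : LaurentSeries A, coeffMap πA y ≠ 0 →
      ∀ hy : coeffMap A.subtype y ∈ modularFunctionFieldBar M,
        (⟨coeffMap A.subtype y, hy⟩ : FN M) ≠ 0 := by
    intro y hy0 hy h0
    have h1 : coeffMap A.subtype y = 0 := congrArg Subtype.val h0
    have h2 : y = 0 := Gauss.iota_injective A (by rw [map_zero]; exact h1)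
    exact hy0 (by rw [h2, map_zero])
  set fa : FN M := ⟨coeffMap A.subtype a, ha⟩ with hfa
  set fb : FN M := ⟨coeffMap A.subtype b, hb⟩ with hfb
  have hfa0 : fa ≠ 0 := hinj a ha0 ha
  have hfb0 : fb ≠ 0 := hinj b hb0 hb
  obtain ⟨Da, hDa, -⟩ := HasPrincipalDivisors.exists_divisor (K := Kb) fa hfa0
  obtain ⟨Db, hDb, -⟩ := HasPrincipalDivisors.exists_divisor (K := Kb) fb hfb0
  have hrelF : f * fb = algebraMap Kb _ c * fa := Subtype.ext hrel
  have hcF : algebraMap Kb (FN M) c ≠ 0 := by rw [Ne, map_eq_zero]; exact hc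
  have hDeq : D = Da - Db := by
    ext v
    rw [Finsupp.sub_apply, hDf, hDa, hDb]
    have h1 := congrArg v.ord hrelF
    rw [v.ord_mul hf0 hfb0, v.ord_mul hcF hfa0, Place.ord_algebraMap] at h1
    omega
  set ab : FbA := ⟨coeffMap πA a, hmem a ha⟩ with hab
  set bb : FbA := ⟨coeffMap πA b, hmem b hb⟩ with hbb
  have hab0 : ab ≠ 0 := fun h => ha0 (congrArg Subtype.val h)
  have hbb0 : bb ≠ 0 := fun h => hb0 (congrArg Subtype.val h)
  have hra : ∀ Q, Finsupp.mapDomain r Da Q = Q.ord ab := hr.2 a ha _ ha0 Da hDa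
  have hrb : ∀ Q, Finsupp.mapDomain r Db Q = Q.ord bb := hr.2 b hb _ hb0 Db hDb
  have hsub : ∀ X Y : Divisor Kb (FN M), Finsupp.mapDomain r (X - Y) =
      Finsupp.mapDomain r X - Finsupp.mapDomain r Y :=
    fun X Y => map_sub (Finsupp.mapDomain.addMonoidHom r) X Y
  have hord : ∀ Q : Place kA FbA, Q.ord (ab / bb) = 0 := by
    intro Q
    rw [div_eq_mul_inv, Q.ord_mul hab0 (inv_ne_zero hbb0), Place.ord_inv, ← hra, ← hrb]
    have h1 := DFunLike.congr_fun h0 Q
    rw [hDeq, hsub, Finsupp.sub_apply, Finsupp.zero_apply] at h1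
    omega
  obtain ⟨e, he⟩ := (isSepParam_jb_residue A M hA hℓM).mem_range_of_forall_ord_nonneg
    (f := ab / bb) (fun Q => (hord Q).ge)
  obtain ⟨u, rfl⟩ := hπ e
  have hu0 : (u : Kb) ≠ 0 := by
    intro hu
    have hu' : u = 0 := Subtype.ext hu
    rw [hu', map_zero, map_zero] at he
    exact div_ne_zero hab0 hbb0 he.symm
  set b' : LaurentSeries A := HahnSeries.single 0 u * b with hb'def
  have hιb' : coeffMap A.subtype b' =
      algebraMap Kb (LaurentSeries Kb) (u : Kb) * coeffMap A.subtype b := by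
    rw [hb'def, map_mul, coeffMap_single, algebraMap_laurentSeries_eq_single]
    rfl
  have hb' : coeffMap A.subtype b' ∈ modularFunctionFieldBar M := by
    rw [hιb']
    exact mul_mem (IntermediateField.algebraMap_mem _ _) hb
  have hπb' : coeffMap πA b' = coeffMap πA a := by
    have h1 := congrArg Subtype.val ((eq_div_iff hbb0).mp he)
    rw [hb'def, map_mul, coeffMap_single, ← algebraMap_laurentSeries_eq_single]
    exact h1
  have hDb' : ∀ P, Db P = P.ord (⟨coeffMap A.subtype b', hb'⟩ : FN M) := by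
    intro P
    have h1 : (⟨coeffMap A.subtype b', hb'⟩ : FN M) = algebraMap Kb (FN M) (u : Kb) * fb :=
      Subtype.ext hιb'
    have h2 : algebraMap Kb (FN M) (u : Kb) ≠ 0 := by rw [Ne, map_eq_zero]; exact hu0
    rw [h1, P.ord_mul h2 hfb0, Place.ord_algebraMap, zero_add, hDb]
  have hb'0 : coeffMap πA b' ≠ 0 := by rw [hπb']; exact ha0
  obtain ⟨za, hzaF, hza, hza'⟩ := H.lift a ha ha0
  obtain ⟨zb, hzbF, hzb, hzb'⟩ := H.lift b' hb' hb'0
  have hzeq : coeffMap πA za = coeffMap πA zb := by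
    rw [hπb'] at hzb'
    exact H.unique hza' hzb'
  have hza0 : coeffMap πA za ≠ 0 := H.ne_zero hza' ha0
  have hzb0 : coeffMap πA zb ≠ 0 := H.ne_zero hzb' hb'0
  have hTa := hr.2 za hzaF (hmem za hzaF) hza0 (ΦD Da) (hza Da hDa)
  have hTb := hr.2 zb hzbF (hmem zb hzbF) hzb0 (ΦD Db) (hzb Db hDb')
  rw [hDeq, map_sub, hsub, sub_eq_zero]
  ext Q
  rw [hTa, hTb]
  congr 1
  exact Subtype.ext hzeq

variable (h49 : 4 ∣ M ∨ 9 ∣ M) (h : ReductionInputsModL A M)

include hA hℓM h49 in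
/-- `ΦD` preserves the divisors of degree `0` with `r_* Z = 0`. -/
theorem IsIntOp.mapDomain_eq_zero_of_degree (H : IsIntOp A ΦD Op C)
    {Z : Divisor Kb (FN M)} (hdeg : Divisor.degree Z = 0)
    (hZ : Z.mapDomain (placeReductionModL h) = 0) :
    Finsupp.mapDomain (placeReductionModL h) (ΦD Z) = 0 := by
  have : IsAlgClosed kA := GalEq.isAlgClosed_residueField A
  have G := MAZ.good_placeReductionModL M A hA hℓM h49 h
  have hrr := isPlaceReductionModL_placeReductionModL h
  have hΦ : ((Finsupp.mapDomain.addMonoidHom (placeReductionModL h)).comp ΦD) Z = 0 := by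
    refine MAZ.eq_zero_of_bounded G _ C ?_ ?_ hdeg hZ
    · intro P Q
      have h0 : 0 ≤ Finsupp.mapDomain (placeReductionModL h) (ΦD (Finsupp.single P 1)) :=
        ES.mapDomain_nonneg _ (H.nonneg P)
      have h1 := apply_le_cnt h0 Q
      rw [cnt_mapDomain] at h1
      change |Finsupp.mapDomain (placeReductionModL h) (ΦD (Finsupp.single P 1)) Q| ≤ _
      rw [abs_of_nonneg (h0 Q)]
      exact h1.trans (H.cnt_le P)
    · intro E hE hE0
      exact H.mapDomain_eq_zero_of_principal hA hℓM hrr hE hE0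
  exact hΦ

include hA hℓM h49 h in
set_option maxHeartbeats 1600000 in
/-- **the relation `Rel` is compatible with every integral operator.** -/
theorem Rel.op (H : IsIntOp A ΦD Op C) (φJ : JZero M →+ JZero M)
    (hφJ : ∀ E : Divisor.degZero (K := Kb) (F := FN M),
      ∃ E' : Divisor.degZero (K := Kb) (F := FN M),
        (E' : Divisor Kb (FN M)) = ΦD (E : Divisor Kb (FN M)) ∧ φJ (Pic0.mk E) = Pic0.mk E')
    {n : ℕ} {w : FbA} {y : JZero M} (hR : Rel n w y) :
    ∃ z : FbA, Op (w : LaurentSeries kA) (z : LaurentSeries kA) ∧ Rel n z (φJ y) := by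
  have hrr := isPlaceReductionModL_placeReductionModL h
  have hx : IsSepParam Kb (jF M) := isSepParam_jF' M
  obtain ⟨hw, E, hE, hy⟩ := hR
  obtain ⟨E₀, rfl⟩ := Pic0.mk_surjective y
  rw [reductionModL_mk h, Pull.mk_eq_mk_iff] at hy
  obtain ⟨u, hu0, hu⟩ := hy
  obtain ⟨D₂, hD₂p, hD₂r, -⟩ := H.exists_div_lift hA hℓM hrr u hu0
  obtain ⟨Dw, hDwp, hDwr, z, hz0, hzF, hzT⟩ := H.exists_div_lift hA hℓM hrr w hw
  have hsub : ∀ X Y : Divisor Kb (FN M), Finsupp.mapDomain (placeReductionModL h) (X - Y) =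
      Finsupp.mapDomain (placeReductionModL h) X - Finsupp.mapDomain (placeReductionModL h) Y :=
    fun X Y => map_sub (Finsupp.mapDomain.addMonoidHom (placeReductionModL h)) X Y
  have hsmul : ∀ (c : ℕ) (X : Divisor Kb (FN M)), Finsupp.mapDomain (placeReductionModL h) (c • X) =
      c • Finsupp.mapDomain (placeReductionModL h) X :=
    fun c X => map_nsmul (Finsupp.mapDomain.addMonoidHom (placeReductionModL h)) c X
  set E₁ : Divisor.degZero (K := Kb) (F := FN M) :=
    E₀ - ⟨D₂, Divisor.mem_degZero.2 (hx.degree_eq_zero_of_isPrincipal hD₂p)⟩ with hE₁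
  have hE₁c : (E₁ : Divisor Kb (FN M)) = (E₀ : Divisor Kb (FN M)) - D₂ := rfl
  have hmk : Pic0.mk E₀ = Pic0.mk E₁ := by
    rw [Pull.mk_eq_mk_iff, hE₁c, sub_sub_cancel]
    exact hD₂p
  have hrE : Finsupp.mapDomain (placeReductionModL h) (E₁ : Divisor Kb (FN M)) =
      (E : Divisor kA FbA) := by
    ext Q
    have h1 := hu Q
    rw [Finsupp.sub_apply, coe_reductionDegZeroAlong] at h1
    rw [hE₁c, hsub, Finsupp.sub_apply, hD₂r]
    omega
  have hZ0 : Finsupp.mapDomain (placeReductionModL h) (Dw - n • (E₁ : Divisor Kb (FN M))) = 0 := by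
    ext Q
    rw [hsub, hsmul, hrE, Finsupp.sub_apply, Finsupp.smul_apply, hDwr, ← hE Q, nsmul_eq_mul,
      Finsupp.zero_apply, sub_self]
  have hZd : Divisor.degree (Dw - n • (E₁ : Divisor Kb (FN M))) = 0 := by
    rw [map_sub, map_nsmul, hx.degree_eq_zero_of_isPrincipal hDwp, Divisor.mem_degZero.1 E₁.2,
      smul_zero, sub_zero]
  have hTZ := H.mapDomain_eq_zero_of_degree hA hℓM h49 h hZd hZ0
  rw [map_sub, map_nsmul, hsub, hsmul, sub_eq_zero] at hTZ
  obtain ⟨E', hE', hT⟩ := hφJ E₁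
  refine ⟨z, hzF, hz0, reductionDegZeroAlong (placeReductionModL h) hrr.1 E', fun Q => ?_, ?_⟩
  · rw [← hzT Q, hTZ, Finsupp.smul_apply, nsmul_eq_mul, ← hE']
    rfl
  · rw [hmk, hT, reductionModL_mk h]

end Op

/-! ### the formal operator `w ↦ ∏_b w(ζ^b q)` -/

section FormalG

variable {k : Type*} [Field k] (c : ℕ) (ζ : kˣ)

/-- `z = ∏_{b < c} w(ζ^b q)`. -/
def FormalG (w z : LaurentSeries k) : Prop := z = ∏ b ∈ Finset.range c, rotR (ζ ^ b) w

variable {c ζ}

theorem FormalG.unique {w z z' : LaurentSeries k} (h : FormalG c ζ w z) (h' : FormalG c ζ w z') :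
    z = z' := h.trans h'.symm

theorem FormalG.ne_zero {w z : LaurentSeries k} (h : FormalG c ζ w z) (hw : w ≠ 0) : z ≠ 0 := by
  rw [h, Finset.prod_ne_zero_iff]
  intro b _
  rw [Ne, map_eq_zero_iff _ (rotR_injective _)]
  exact hw

theorem FormalG.mul {w z w' z' : LaurentSeries k} (h : FormalG c ζ w z) (h' : FormalG c ζ w' z') :
    FormalG c ζ (w * w') (z * z') := by
  unfold FormalG at *
  simp only [map_mul, Finset.prod_mul_distrib, h, h']

theorem FormalG.inv {w z : LaurentSeries k} (h : FormalG c ζ w z) : FormalG c ζ w⁻¹ z⁻¹ := by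
  unfold FormalG at *
  simp only [map_inv₀, Finset.prod_inv_distrib, h]

theorem FormalG.div {w z w' z' : LaurentSeries k} (h : FormalG c ζ w z) (h' : FormalG c ζ w' z') :
    FormalG c ζ (w / w') (z / z') := by
  rw [div_eq_mul_inv, div_eq_mul_inv]
  exact h.mul h'.inv

theorem formalG_one : FormalG c ζ (1 : LaurentSeries k) 1 := by
  unfold FormalG
  simp

theorem FormalG.pow {w z : LaurentSeries k} (h : FormalG c ζ w z) (n : ℕ) :
    FormalG c ζ (w ^ n) (z ^ n) := by
  induction n with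
  | zero => simpa using formalG_one
  | succ n ih => rw [pow_succ, pow_succ]; exact ih.mul h

theorem formalG_const (e : k) :
    FormalG c ζ (algebraMap k (LaurentSeries k) e) (algebraMap k (LaurentSeries k) (e ^ c)) := by
  unfold FormalG
  have hr : ∀ u : kˣ, rotR u (algebraMap k (LaurentSeries k) e) = algebraMap k (LaurentSeries k) e := by
    intro u
    rw [algebraMap_laurentSeries_eq_single, rotR_single]
    simp
  simp only [hr, Finset.prod_const, Finset.card_range, map_pow]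

end FormalG

/-! ### `Γ = φ^* φ_*` -/

section Gamma

open Fermat.Agent.GAL.FFBC Fermat.Agent.GAL.FFExt Fermat.Agent.GAL.HeckeComm

variable {ℓ : ℕ} [Fact ℓ.Prime] {M N : ℕ} [NeZero M] [NeZero N] {A : ValuationSubring Kb}

local notation "kA" => IsLocalRing.ResidueField A
local notation "πA" => IsLocalRing.residue A
local notation "FbA" => modularFunctionFieldFullC (IsLocalRing.ResidueField A) M

/-- `φ^* φ_*` on divisors. -/
def gamD (φ : FN N →ₐ[Kb] FN M) : Divisor Kb (FN M) →+ Divisor Kb (FN M) :=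
  (Divisor.pullbackAlong φ (isIntegral_any φ)).comp (Divisor.pushforwardAlong φ (isIntegral_any φ))

/-- `φ^* φ_*` on divisor classes. -/
def gamJ (φ : FN N →ₐ[Kb] FN M) : JZero M →+ JZero M := (RIB.jPull φ).comp (RIB.jPush φ)

theorem gamJ_apply (φ : FN N →ₐ[Kb] FN M) (y : JZero M) :
    gamJ φ y = RIB.jPull φ (RIB.jPush φ y) := rfl

/-- `φ^* φ_* (div f) = div (φ (N_φ f))`. -/
theorem isDiv_gamD (φ : FN N →ₐ[Kb] FN M) {m : ℤ} {D : Divisor Kb (FN M)} {f : FN M}
    (hf : TorsES.IsDiv m D f) : TorsES.IsDiv m (gamD φ D) (φ (TorsES.normAlong φ f)) :=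
  (hf.pushforwardAlong φ (isIntegral_any φ) (finiteAlong_any φ)
    (RIB.normFormula_any φ)).pullbackAlong φ (isIntegral_any φ)

theorem isIntOp_gamD (φ : FN N →ₐ[Kb] FN M) (c : ℕ) [NeZero c]
    (hG : ∀ u : FN M, ((φ (TorsES.normAlong φ u) : FN M) : LaurentSeries Kb) =
      ∏ b ∈ Finset.range c, rotR (Units.map (A.subtype : A →* Kb) (zetaA A c) ^ b)
        (u : LaurentSeries Kb)) :
    IsIntOp A (gamD φ) (FormalG c (zetaK c πA)) (finrankAlong Kb φ) where
  nonneg P := pullbackAlong_nonneg φ (isIntegral_any φ)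
    (pushforwardAlong_nonneg φ (isIntegral_any φ) (single_one_nonneg P))
  cnt_le P := by
    have hdeg := (isSepParam_jF' M).deg_eq_one
    rw [cnt_eq_degree hdeg]
    change Divisor.degree (Divisor.pullbackAlong φ (isIntegral_any φ)
      (Divisor.pushforwardAlong φ (isIntegral_any φ) (Finsupp.single P 1))) ≤ _
    rw [Divisor.degree_pullbackAlong φ (isIntegral_any φ) (RIB.fundamentalIdentity_any φ),
      Divisor.degree_pushforwardAlong, Divisor.degree_single, hdeg]
    simp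
  unique h h' := h.unique h'
  ne_zero h hw := h.ne_zero hw
  div h h' := h.div h'
  lift y₀ hy hy0 := by
    set z₀ : LaurentSeries A := ∏ b ∈ Finset.range c, rotR (zetaA A c ^ b) y₀ with hz₀
    have hι : coeffMap A.subtype z₀ =
        ((φ (TorsES.normAlong φ ⟨_, hy⟩) : FN M) : LaurentSeries Kb) := by
      rw [hG, hz₀, map_prod]
      refine Finset.prod_congr rfl fun b _ => ?_
      rw [coeffMap_rotR, map_pow]
    have hz : coeffMap A.subtype z₀ ∈ modularFunctionFieldBar M := by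
      rw [hι]; exact Subtype.property _
    have hf0 : (⟨coeffMap A.subtype y₀, hy⟩ : FN M) ≠ 0 := by
      intro h0
      have h1 : coeffMap A.subtype y₀ = 0 := congrArg Subtype.val h0
      have h2 : y₀ = 0 := Gauss.iota_injective A (by rw [map_zero]; exact h1)
      exact hy0 (by rw [h2, map_zero])
    refine ⟨z₀, hz, fun D hD P => ?_, ?_⟩
    · have h1 : TorsES.IsDiv 1 D (⟨coeffMap A.subtype y₀, hy⟩ : FN M) :=
        ⟨hf0, fun P => by rw [one_mul, hD P]⟩
      have h2 := (isDiv_gamD φ h1).2 P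
      rw [one_mul] at h2
      rw [h2]
      congr 1
      exact Subtype.ext hι.symm
    · unfold FormalG
      rw [hz₀, map_prod]
      refine Finset.prod_congr rfl fun b _ => ?_
      rw [coeffMap_rotR, map_pow]
      rfl

variable (hA : A.LiesOverPrime ℓ) (hℓM : ¬ ℓ ∣ M) (h49 : 4 ∣ M ∨ 9 ∣ M)
  (h : ReductionInputsModL A M)

include hA hℓM h49 h in
/-- **[GAMMA] (G2)**, level-agnostic form. -/
theorem Rel.gamma (φ : FN N →ₐ[Kb] FN M) (c : ℕ) [NeZero c]
    (hG : ∀ u : FN M, ((φ (TorsES.normAlong φ u) : FN M) : LaurentSeries Kb) =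
      ∏ b ∈ Finset.range c, rotR (Units.map (A.subtype : A →* Kb) (zetaA A c) ^ b)
        (u : LaurentSeries Kb))
    {n : ℕ} {w : FbA} {y : JZero M} (hR : Rel n w y) :
    ∃ z : FbA, FormalG c (zetaK c πA) (w : LaurentSeries kA) (z : LaurentSeries kA) ∧
      Rel n z (gamJ φ y) :=
  Rel.op hA hℓM h49 h (isIntOp_gamD φ c hG) (gamJ φ)
    (fun E => ⟨RED.pullDegZero φ (isIntegral_any φ) (RIB.fundamentalIdentity_any φ)
      (SS.pushDegZero φ (isIntegral_any φ) E), rfl, rfl⟩) hR

end Gamma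

section Beta

variable {ℓ : ℕ} [Fact ℓ.Prime] {N c : ℕ} [NeZero N] [NeZero c] {A : ValuationSubring Kb}

local notation "kA" => IsLocalRing.ResidueField A
local notation "πA" => IsLocalRing.residue A
local notation "FbA" => modularFunctionFieldFullC (IsLocalRing.ResidueField A) (N * c)

theorem gamJ_beta (hB : HeckeInputsAlong Kb N c) (y : JZero (N * c)) :
    gamJ (heckeBetaBar Kb N c) y = Bstar N c hB (SS.pushB N c y) := rfl

theorem finrankAlong_beta_of_eq_four (hc : c = 4) (h2 : 2 ∣ N) :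
    finrankAlong Kb (heckeBetaBar Kb N c) = c := by
  subst hc
  exact finrankAlong_beta_four N h2

variable (hA : A.LiesOverPrime ℓ) (hℓM : ¬ ℓ ∣ N * c) (h49 : 4 ∣ N * c ∨ 9 ∣ N * c)
  (h : ReductionInputsModL A (N * c))

include hA hℓM h49 h in
/-- **[GAMMA] (G2)** for `B = heckeBetaBar Kb N c` of degree `c`. -/
theorem Rel.gamma_beta (hdeg : finrankAlong Kb (heckeBetaBar Kb N c) = c)
    (hB : HeckeInputsAlong Kb N c) {n : ℕ} {w : FbA} {y : JZero (N * c)} (hR : Rel n w y) :
    ∃ z : FbA, FormalG c (zetaK c πA) (w : LaurentSeries kA) (z : LaurentSeries kA) ∧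
      Rel n z (Bstar N c hB (SS.pushB N c y)) :=
  Rel.gamma hA hℓM h49 h (heckeBetaBar Kb N c) c
    (fun u => coe_beta_normAlong_beta N c _ (isPrimitiveRoot_zetaA A c) hdeg u) hR

end Beta

end

end Fermat.Agent.HK
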