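import Fermat.Agent.HK.GammaNorm

/-!
# HK / [GAMMA] (G1), level-agnostic form

`φ : F_N → F_L` any `Kb`-algebra hom which is `f(q) ↦ f(q ^ c)` on `q`-expansions, of degree `c`:
`(N_φ u)(q ^ c) = ∏_{b < c} u(ζ^b q)`.
-/

set_option autoImplicit false
set_option linter.unusedSectionVars false
set_option linter.style.haveILetI false

noncomputable section

open ModularCurve AlgebraicCurve

namespace Fermat.Agent.HK

open Fermat.Agent.RED hiding Kb
open Fermat.Agent.RED.ES Fermat.Agent.S24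
open Fermat.Agent.GAL.HeckeComm

variable {N L c : ℕ} [NeZero N] [NeZero L] [NeZero c]

/-- the embedding `u ↦ u(ζ^b q)` over `φ F_N`. -/
def gamEmbGen (φ : FN N →ₐ[Kb] FN L)
    (hφ : ∀ x : FN N, ((φ x : FN L) : LaurentSeries Kb) = qExpand Kb c (x : LaurentSeries Kb))
    (ζ : Kbˣ) (hζ : ζ ^ c = 1) (b : ℕ) :
    letI := algebraAlong φ
    letI := algLauBar N c
    FN L →ₐ[FN N] LauBar :=
  letI := algebraAlong φ
  letI := algLauBar N c
  AlgHom.mk (lauIncl.comp ((rotR (ζ ^ b)).comp (modularFunctionFieldBar L).val.toRingHom))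
    (fun a => by
      have h1 : algebraMap (FN N) (FN L) = φ.toRingHom := RingHom.algebraMap_toAlgebra _
      have h2 : algebraMap (FN N) LauBar = lauIncl.comp (toLau c N) :=
        RingHom.algebraMap_toAlgebra _
      rw [h1, h2, RingHom.toFun_eq_coe, RingHom.comp_apply, RingHom.comp_apply, RingHom.comp_apply,
        toLau_apply, AlgHom.toRingHom_eq_coe, RingHom.coe_coe]
      congr 1
      show rotR (ζ ^ b) ((φ a : FN L) : LaurentSeries Kb) = _
      rw [hφ, rotR_qExpand c _ (by rw [← pow_mul, mul_comm, pow_mul, hζ, one_pow])])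

theorem gamEmbGen_apply (φ : FN N →ₐ[Kb] FN L)
    (hφ : ∀ x : FN N, ((φ x : FN L) : LaurentSeries Kb) = qExpand Kb c (x : LaurentSeries Kb))
    (ζ : Kbˣ) (hζ : ζ ^ c = 1) (b : ℕ) (u : FN L) :
    gamEmbGen φ hφ ζ hζ b u = lauIncl (rotR (ζ ^ b) (u : LaurentSeries Kb)) := rfl

/-- **(G1)**, level-agnostic. -/
theorem qExpand_normAlong_of_coe (φ : FN N →ₐ[Kb] FN L)
    (hφ : ∀ x : FN N, ((φ x : FN L) : LaurentSeries Kb) = qExpand Kb c (x : LaurentSeries Kb))
    (hdeg : finrankAlong Kb φ = c) (ζ : Kbˣ) (hζ : IsPrimitiveRoot ζ c) (u : FN L) :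
    qExpand Kb c ((TorsES.normAlong φ u : FN N) : LaurentSeries Kb)
      = ∏ b ∈ Finset.range c, rotR (ζ ^ b) (u : LaurentSeries Kb) := by
  unfold TorsES.normAlong
  letI := algebraAlong φ
  letI := algLauBar N c
  haveI : Module.Finite (FN N) (FN L) := finiteAlong_any φ
  apply lauIncl.injective
  have h1 := Algebra.norm_eq_prod_embeddings (FN N) LauBar u
  have h2 : algebraMap (FN N) LauBar = lauIncl.comp (toLau c N) :=
    RingHom.algebraMap_toAlgebra _
  rw [h2, RingHom.comp_apply, toLau_apply] at h1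
  have hbij : Function.Bijective (fun i : Fin c => gamEmbGen φ hφ ζ hζ.pow_eq_one (i : ℕ)) := by
    rw [Fintype.bijective_iff_injective_and_card]
    refine ⟨?_, ?_⟩
    · intro i i' hii
      have h3 := DFunLike.congr_fun hii (jF L)
      rw [gamEmbGen_apply, gamEmbGen_apply] at h3
      have h4 := congrArg (fun z => HahnSeries.coeff z (-1)) (lauIncl.injective h3)
      simp only [rotR_coeff, ES.coe_jF, coeff_jqModC_neg_one, mul_one] at h4
      have h5 : (ζ ^ (i : ℕ)) ^ (-1 : ℤ) = (ζ ^ (i' : ℕ)) ^ (-1 : ℤ) := Units.ext h4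
      rw [zpow_neg_one, zpow_neg_one, inv_inj] at h5
      exact Fin.ext (hζ.pow_inj i.2 i'.2 h5)
    · rw [AlgHom.card, Fintype.card_fin]
      exact hdeg.symm
  refine h1.trans ?_
  rw [← hbij.prod_comp (fun σ : FN L →ₐ[FN N] LauBar => σ u), map_prod,
    ← Fin.prod_univ_eq_prod_range
      (fun b => lauIncl (rotR (ζ ^ b) (u : LaurentSeries Kb))) c]
  exact Finset.prod_congr rfl fun b _ => gamEmbGen_apply φ hφ ζ hζ.pow_eq_one b u

/-- `φ (N_φ u) = ∏_b u(ζ^b q)`. -/
theorem coe_apply_normAlong_of_coe (φ : FN N →ₐ[Kb] FN L)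
    (hφ : ∀ x : FN N, ((φ x : FN L) : LaurentSeries Kb) = qExpand Kb c (x : LaurentSeries Kb))
    (hdeg : finrankAlong Kb φ = c) (ζ : Kbˣ) (hζ : IsPrimitiveRoot ζ c) (u : FN L) :
    ((φ (TorsES.normAlong φ u) : FN L) : LaurentSeries Kb)
      = ∏ b ∈ Finset.range c, rotR (ζ ^ b) (u : LaurentSeries Kb) := by
  rw [hφ, qExpand_normAlong_of_coe φ hφ hdeg ζ hζ]

/-- the degree only depends on the effect on `q`-expansions. -/
theorem finrankAlong_of_coe (hL : N * c = L) (φ : FN N →ₐ[Kb] FN L)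
    (hφ : ∀ x : FN N, ((φ x : FN L) : LaurentSeries Kb) = qExpand Kb c (x : LaurentSeries Kb)) :
    finrankAlong Kb φ = finrankAlong Kb (heckeBetaBar Kb N c) := by
  have h1 : φ = (castLevel hL).comp (heckeBetaBar Kb N c) := by
    refine AlgHom.ext fun x => Subtype.ext ?_
    rw [AlgHom.comp_apply, coe_castLevel, coe_heckeBetaBar, hφ]
  rw [h1, S36.Kum.finrankAlong_comp', finrankAlong_castLevel, mul_one]

theorem finrankAlong_four_of_coe (h2 : 2 ∣ N) (hL : N * 4 = L) (φ : FN N →ₐ[Kb] FN L)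
    (hφ : ∀ x : FN N, ((φ x : FN L) : LaurentSeries Kb) = qExpand Kb 4 (x : LaurentSeries Kb)) :
    finrankAlong Kb φ = 4 := by
  rw [finrankAlong_of_coe hL φ hφ, finrankAlong_beta_four N h2]

end Fermat.Agent.HK
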