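import Fermat.Agent.MAZ.Geo.Heq
import Fermat.Agent.RED.Pull

/-!
# HK / Good : the good-level half of [HK-U] + [HK-OLD]   (two-letter form: residue characteristic `ℓ`, exponent `n`)

`M` a rigid level (`4 ∣ M ∨ 9 ∣ M`), `A ∣ ℓ`, `ℓ ∤ M`, `k` the residue field of `A`, `Fb = modularFunctionFieldFullC k M`,
`h : ReductionInputsModL A M`, `r = placeReductionModL h`.

* `FormalT m ζ w z` : `z(q^m) = w(q^(m²)) ∏_{b < m} w(ζ^b q)` on Laurent series over a field (`z = T^×_m w`);
  `.unique`, `.ne_zero`, `.mul`, `.inv`, `.div`, `.pow`, `formalT_one`, `formalT_const`.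
* `zetaA A m : Aˣ` a fixed primitive `m`-th root of unity, `zetaK m π : kˣ` its image.
* `norm_formalT` : (ANY level, any residue characteristic) for an integral `q`-series `y₀` of `F_M`, `N_α (β y₀) = ι z₀` and
  `FormalT m (zetaK m π) (π y₀) (π z₀)`  (= `MAZ.norm_red_formula` with an explicit root of unity).
* `exists_integral_lift` : every `w ≠ 0` of `Fb` is `π a / π b`, `a`, `b` integral `q`-series of `F_M`.
* `exists_div_lift` : a principal divisor `D` of `F_M` with `r_* D = div w`, `r_* T_m D = div z`, `FormalT .. w z`.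
* `mapDomain_TDiv_eq_zero_of_degree` : [HK-U] in divisor form.
* `Rel n w y` : `w ≠ 0`, `div w = n E`, `red y = [E]`      (`w : Fb`, `y : JZero M`).
  `Rel.hecke` : `Rel n w y → ∃ z, FormalT m _ w z ∧ Rel n z (T_m y)`;
  `Rel.mul`, `Rel.inv`, `Rel.pow`, `Rel.red_eq`, `rel_const_mul_pow`, `exists_reduction_eq`, `exists_rel`,
  `Rel.eq_const_mul_pow` : `Rel n w y → red y = 0 → w = c u ^ n`.
-/

set_option autoImplicit false
set_option linter.unusedSectionVars false
set_option synthInstance.maxHeartbeats 400000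

open AlgebraicCurve ModularCurve
open Fermat.Agent.S24 Fermat.Agent.GAL.HeckeInputs

namespace Fermat.Agent.HK

open Fermat.Agent.RED hiding Kb GQ
open Fermat.Agent.RED.ES Fermat.Agent.RED.Gauss

noncomputable section

/-! ### the formal multiplicative Hecke operator on Laurent series -/

section Formal

variable {k : Type*} [Field k] (m : ℕ) [NeZero m] (ζ : kˣ)

/-- `z = T^×_m w` : `z(q^m) = w(q^(m²)) ∏_b w(ζ^b q)`. -/
def FormalT (w z : LaurentSeries k) : Prop :=
  qExpand k m z = qExpand k m (qExpand k m w) * ∏ b ∈ Finset.range m, rotR (ζ ^ b) w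

variable {m ζ}

theorem FormalT.unique {w z z' : LaurentSeries k} (h : FormalT m ζ w z) (h' : FormalT m ζ w z') :
    z = z' := qExpand_injective (R := k) m (h.trans h'.symm)

theorem FormalT.ne_zero {w z : LaurentSeries k} (h : FormalT m ζ w z) (hw : w ≠ 0) : z ≠ 0 :=
  MAZ.ne_zero_of_formula ζ hw h

theorem FormalT.mul {w z w' z' : LaurentSeries k} (h : FormalT m ζ w z) (h' : FormalT m ζ w' z') :
    FormalT m ζ (w * w') (z * z') := by
  unfold FormalT at *
  simp only [map_mul, Finset.prod_mul_distrib, h, h']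
  ring

theorem FormalT.inv {w z : LaurentSeries k} (h : FormalT m ζ w z) : FormalT m ζ w⁻¹ z⁻¹ := by
  unfold FormalT at *
  simp only [map_inv₀, Finset.prod_inv_distrib, h, mul_inv]

theorem FormalT.div {w z w' z' : LaurentSeries k} (h : FormalT m ζ w z) (h' : FormalT m ζ w' z') :
    FormalT m ζ (w / w') (z / z') := by
  rw [div_eq_mul_inv, div_eq_mul_inv]
  exact h.mul h'.inv

theorem formalT_one : FormalT m ζ (1 : LaurentSeries k) 1 := by
  unfold FormalT
  simp

theorem FormalT.pow {w z : LaurentSeries k} (h : FormalT m ζ w z) (n : ℕ) :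
    FormalT m ζ (w ^ n) (z ^ n) := by
  induction n with
  | zero => simpa using formalT_one
  | succ n ih => rw [pow_succ, pow_succ]; exact ih.mul h

theorem formalT_const (c : k) :
    FormalT m ζ (algebraMap k (LaurentSeries k) c) (algebraMap k (LaurentSeries k) (c ^ (m + 1))) := by
  unfold FormalT
  have hr : ∀ u : kˣ, rotR u (algebraMap k (LaurentSeries k) c) = algebraMap k (LaurentSeries k) c := by
    intro u
    rw [algebraMap_laurentSeries_eq_single, rotR_single]
    simp
  have hq : ∀ c : k, qExpand k m (algebraMap k (LaurentSeries k) c) = algebraMap k (LaurentSeries k) c := by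
    intro c
    rw [algebraMap_laurentSeries_eq_single, qExpand_single, mul_zero]
  simp only [hr, hq, Finset.prod_const, Finset.card_range, map_pow]
  ring

end Formal

/-! ### the `q`-expansion formula for `N_α (β y)`, with an explicit root of unity -/

section Zeta

variable (A : ValuationSubring Kb) (m : ℕ) [NeZero m]

/-- a primitive `m`-th root of unity, as a unit of `A`. -/
def zetaA : Aˣ :=
  let ζ := (HasEnoughRootsOfUnity.exists_primitiveRoot Kb m).choose
  have hζ : IsPrimitiveRoot ζ m := (HasEnoughRootsOfUnity.exists_primitiveRoot Kb m).choose_spec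
  ⟨⟨ζ, mem_valuationSubring_of_pow_eq_one A (NeZero.ne m) hζ.pow_eq_one⟩,
    ⟨ζ⁻¹, mem_valuationSubring_of_pow_eq_one A (NeZero.ne m)
      (by rw [inv_pow, hζ.pow_eq_one, inv_one])⟩,
    Subtype.ext (mul_inv_cancel₀ (hζ.ne_zero (NeZero.ne m))),
    Subtype.ext (inv_mul_cancel₀ (hζ.ne_zero (NeZero.ne m)))⟩

theorem isPrimitiveRoot_zetaA :
    IsPrimitiveRoot (Units.map (A.subtype : A →* Kb) (zetaA A m)) m := by
  rw [← IsPrimitiveRoot.coe_units_iff]
  exact (HasEnoughRootsOfUnity.exists_primitiveRoot Kb m).choose_spec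

variable {A} in
/-- its image in the residue field. -/
def zetaK {k : Type*} [Field k] (π : A →+* k) : kˣ := Units.map (π : A →* k) (zetaA A m)

variable {m}

/-- **[HK-FORMAL]** for the `q`-expansion at `∞`, ANY level `M`, any residue characteristic. -/
theorem norm_formalT {M : ℕ} [NeZero M] (hm : m.Prime) (hmM : ¬ m ∣ M)
    {k : Type*} [Field k] (π : A →+* k)
    (y₀ : LaurentSeries A) (hy : coeffMap A.subtype y₀ ∈ modularFunctionFieldBar M) :
    ∃ z₀ : LaurentSeries A,
      coeffMap A.subtype z₀ = (((letI := algebraAlong (heckeAlphaBar Kb M m);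
        Algebra.norm (FN M) (heckeBetaBar Kb M m ⟨_, hy⟩) : FN M)) : LaurentSeries Kb) ∧
      FormalT m (zetaK m π) (coeffMap π y₀) (coeffMap π z₀) := by
  have h := qExpand_norm M m hm hmM _ (isPrimitiveRoot_zetaA A m) ⟨_, hy⟩
  set w : LaurentSeries A := qExpand A m (qExpand A m y₀) *
    ∏ b ∈ Finset.range m, rotR (zetaA A m ^ b) y₀ with hw
  have hιw : coeffMap A.subtype w = qExpand Kb m (((letI := algebraAlong (heckeAlphaBar Kb M m);
          Algebra.norm (FN M) (heckeBetaBar Kb M m ⟨_, hy⟩) : FN M)) : LaurentSeries Kb) := by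
    rw [h, hw, map_mul, coeffMap_qExpand, coeffMap_qExpand, map_prod]
    congr 1
    refine Finset.prod_congr rfl fun b _ => ?_
    rw [coeffMap_rotR, map_pow]
  obtain ⟨z₀, hz₀, hz₀w⟩ := exists_of_qExpand_eq A.subtype A.subtype_injective m _ w hιw.symm
  refine ⟨z₀, hz₀, ?_⟩
  unfold FormalT
  rw [← coeffMap_qExpand, hz₀w, hw, map_mul, coeffMap_qExpand, coeffMap_qExpand, map_prod]
  congr 1
  refine Finset.prod_congr rfl fun b _ => ?_
  rw [coeffMap_rotR, map_pow]
  rfl

end Zeta

/-! ### the good level -/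

section Good

variable {ℓ : ℕ} [Fact ℓ.Prime] (M : ℕ) [NeZero M] (A : ValuationSubring Kb)
  (hA : A.LiesOverPrime ℓ) (hℓM : ¬ ℓ ∣ M)

local notation "kA" => IsLocalRing.ResidueField A
local notation "πA" => IsLocalRing.residue A
local notation "FbA" => modularFunctionFieldFullC (IsLocalRing.ResidueField A) M

include hA hℓM in
/-- every non zero function of the special fibre is a quotient of reductions of integral `q`-series of `F_M`. -/
theorem exists_integral_lift (w : FbA) (hw : w ≠ 0) :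
    ∃ a b : LaurentSeries A, coeffMap A.subtype a ∈ modularFunctionFieldBar M ∧
      coeffMap A.subtype b ∈ modularFunctionFieldBar M ∧ coeffMap πA a ≠ 0 ∧ coeffMap πA b ≠ 0 ∧
      (w : LaurentSeries kA) * coeffMap πA b = coeffMap πA a := by
  have := charP_residueField A hA
  have hπ : Function.Surjective πA := IsLocalRing.residue_surjective
  have hcore := (exists_isCoreExt M ℓ hℓM).choose_spec
  obtain ⟨x, hx⟩ := (gaussData A M hA hℓM).red_surjective w
  have hxw : gRed (gaussNormBar A M hA hℓM) x = (w : LaurentSeries kA) := by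
    rw [← hx]; rfl
  have hw' : (w : LaurentSeries kA) ≠ 0 := fun h0 => hw (Subtype.ext h0)
  have hx0 : (((x : modularFunctionFieldBar M)) : LaurentSeries Kb) ≠ 0 := by
    intro h0
    have : x = 0 := Subtype.ext (Subtype.ext h0)
    rw [this, map_zero] at hx
    exact hw hx.symm
  obtain ⟨c, a, b, hc, ha, hb, ha0, hb0, hrel⟩ :=
    exists_integral_quotient πA hπ (card_Q_pos M) hcore _ (x : modularFunctionFieldBar M).2 hx0
  rcases A.mem_or_inv_mem c with hcA | hcA
  · have hrel' : (((x : modularFunctionFieldBar M)) : LaurentSeries Kb) * iota A b =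
        iota A (cA A ⟨c, hcA⟩ * a) := by
      rw [map_mul, iota_cA]; exact hrel
    have h1 := gRed_eq (gaussNormBar A M hA hℓM) x hb0 hrel'
    rw [hxw] at h1
    have h2 : (w : LaurentSeries kA) * coeffMap πA b = coeffMap πA (cA A ⟨c, hcA⟩ * a) :=
      (eq_div_iff hb0).1 h1
    refine ⟨cA A ⟨c, hcA⟩ * a, b, ?_, hb, ?_, hb0, h2⟩
    · have : coeffMap A.subtype (cA A ⟨c, hcA⟩ * a) =
          algebraMap Kb (LaurentSeries Kb) c * coeffMap A.subtype a := by
        rw [map_mul]; congr 1; exact iota_cA A _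
      rw [this]
      exact mul_mem (IntermediateField.algebraMap_mem _ _) ha
    · rw [← h2]; exact mul_ne_zero hw' hb0
  · have hrel' : (((x : modularFunctionFieldBar M)) : LaurentSeries Kb) *
        iota A (cA A ⟨c⁻¹, hcA⟩ * b) = iota A a := by
      rw [map_mul, iota_cA]
      have hc' : algebraMap Kb (LaurentSeries Kb) c ≠ 0 := by rw [Ne, map_eq_zero]; exact hc
      show _ * (algebraMap Kb (LaurentSeries Kb) c⁻¹ * iota A b) = iota A a
      rw [map_inv₀, mul_left_comm, show (((x : modularFunctionFieldBar M)) : LaurentSeries Kb) *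
        iota A b = algebraMap Kb (LaurentSeries Kb) c * iota A a from hrel,
        inv_mul_cancel_left₀ hc']
    have hb'0 : pi πA (cA A ⟨c⁻¹, hcA⟩ * b) ≠ 0 := by
      intro h0
      obtain ⟨a₁, b₁, hb₁, h₁'⟩ := x.2
      have h₁ : (((x : modularFunctionFieldBar M)) : LaurentSeries Kb) * iota A b₁ = iota A a₁ := h₁'
      have e : a * b₁ = a₁ * (cA A ⟨c⁻¹, hcA⟩ * b) := by
        apply iota_injective A
        rw [map_mul, map_mul, ← hrel', ← h₁]
        ring
      have e2 := congrArg (pi πA) e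
      rw [map_mul, map_mul, h0, mul_zero] at e2
      exact mul_ne_zero ha0 hb₁ e2
    have h1 := gRed_eq (gaussNormBar A M hA hℓM) x hb'0 hrel'
    rw [hxw] at h1
    refine ⟨a, cA A ⟨c⁻¹, hcA⟩ * b, ha, ?_, ha0, hb'0, (eq_div_iff hb'0).1 h1⟩
    have : coeffMap A.subtype (cA A ⟨c⁻¹, hcA⟩ * b) =
        algebraMap Kb (LaurentSeries Kb) c⁻¹ * coeffMap A.subtype b := by
      rw [map_mul]; congr 1; exact iota_cA A _
    rw [this]
    exact mul_mem (IntermediateField.algebraMap_mem _ _) hb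

include hA hℓM in
set_option maxHeartbeats 1600000 in
/-- a principal divisor of `F_M` lifting `div w`, together with the reduction of its image under `T_m`. -/
theorem exists_div_lift {m : ℕ} [NeZero m] (hm : m.Prime) (hmM : ¬ m ∣ M)
    {r : Place Kb (FN M) → Place kA FbA} (hr : IsPlaceReductionAlong A πA M r)
    (w : FbA) (hw : w ≠ 0) :
    ∃ D : Divisor Kb (FN M), D.IsPrincipal ∧ (∀ Q, Finsupp.mapDomain r D Q = Q.ord w) ∧
      ∃ z : FbA, z ≠ 0 ∧ FormalT m (zetaK m πA) (w : LaurentSeries kA) (z : LaurentSeries kA) ∧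
        ∀ Q, Finsupp.mapDomain r (TDiv M m D) Q = Q.ord z := by
  have := charP_residueField A hA
  have hπ : Function.Surjective πA := IsLocalRing.residue_surjective
  have hcore := (exists_isCoreExt M ℓ hℓM).choose_spec
  obtain ⟨a, b, ha, hb, ha0, hb0, hrel⟩ := exists_integral_lift M A hA hℓM w hw
  have hmem : ∀ y : LaurentSeries A, coeffMap A.subtype y ∈ modularFunctionFieldBar M →
      coeffMap πA y ∈ FbA := fun y hy =>
    coeffMap_mem_fullC_of_integral πA hπ (card_Q_pos M) hcore y hy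
  have hinj : ∀ y : LaurentSeries A, coeffMap πA y ≠ 0 →
      ∀ hy : coeffMap A.subtype y ∈ modularFunctionFieldBar M,
        (⟨coeffMap A.subtype y, hy⟩ : FN M) ≠ 0 := by
    intro y hy0 hy h0
    have h1 : coeffMap A.subtype y = 0 := congrArg Subtype.val h0
    have h2 : y = 0 := Gauss.iota_injective A (by rw [map_zero]; exact h1)
    exact hy0 (by rw [h2, map_zero])
  set fa : FN M := ⟨coeffMap A.subtype a, ha⟩ with hfa
  set fb : FN M := ⟨coeffMap A.subtype b, hb⟩ with hfb
  have hfa0 : fa ≠ 0 := hinj a ha0 ha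
  have hfb0 : fb ≠ 0 := hinj b hb0 hb
  obtain ⟨Da, hDa, -⟩ := HasPrincipalDivisors.exists_divisor (K := Kb) fa hfa0
  obtain ⟨Db, hDb, -⟩ := HasPrincipalDivisors.exists_divisor (K := Kb) fb hfb0
  set ab : FbA := ⟨coeffMap πA a, hmem a ha⟩ with hab
  set bb : FbA := ⟨coeffMap πA b, hmem b hb⟩ with hbb
  have hab0 : ab ≠ 0 := fun h => ha0 (congrArg Subtype.val h)
  have hbb0 : bb ≠ 0 := fun h => hb0 (congrArg Subtype.val h)
  have hwab : w * bb = ab := Subtype.ext hrel
  have hra : ∀ Q, Finsupp.mapDomain r Da Q = Q.ord ab := hr.2 a ha _ ha0 Da hDa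
  have hrb : ∀ Q, Finsupp.mapDomain r Db Q = Q.ord bb := hr.2 b hb _ hb0 Db hDb
  have hsub : ∀ X Y : Divisor Kb (FN M), Finsupp.mapDomain r (X - Y) =
      Finsupp.mapDomain r X - Finsupp.mapDomain r Y :=
    fun X Y => map_sub (Finsupp.mapDomain.addMonoidHom r) X Y
  obtain ⟨za, hza, hza'⟩ := norm_formalT A hm hmM πA a ha
  obtain ⟨zb, hzb, hzb'⟩ := norm_formalT A hm hmM πA b hb
  have hza0 : coeffMap πA za ≠ 0 := hza'.ne_zero ha0
  have hzb0 : coeffMap πA zb ≠ 0 := hzb'.ne_zero hb0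
  have hzaF : coeffMap A.subtype za ∈ modularFunctionFieldBar M := by
    rw [hza]; exact Subtype.property _
  have hzbF : coeffMap A.subtype zb ∈ modularFunctionFieldBar M := by
    rw [hzb]; exact Subtype.property _
  have hTa := hr.2 za hzaF (hmem za hzaF) hza0 (TDiv M m Da) (fun P => by
    rw [TDiv_apply_of_isDiv hfa0 hDa P]
    congr 1
    exact Subtype.ext hza.symm)
  have hTb := hr.2 zb hzbF (hmem zb hzbF) hzb0 (TDiv M m Db) (fun P => by
    rw [TDiv_apply_of_isDiv hfb0 hDb P]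
    congr 1
    exact Subtype.ext hzb.symm)
  set zab : FbA := ⟨coeffMap πA za, hmem za hzaF⟩ with hzab
  set zbb : FbA := ⟨coeffMap πA zb, hmem zb hzbF⟩ with hzbb
  have hzab0 : zab ≠ 0 := fun h => hza0 (congrArg Subtype.val h)
  have hzbb0 : zbb ≠ 0 := fun h => hzb0 (congrArg Subtype.val h)
  refine ⟨Da - Db, ⟨fa / fb, div_ne_zero hfa0 hfb0, fun v => ?_⟩, fun Q => ?_,
    zab / zbb, div_ne_zero hzab0 hzbb0, ?_, fun Q => ?_⟩
  · rw [Finsupp.sub_apply, hDa, hDb, div_eq_mul_inv, v.ord_mul hfa0 (inv_ne_zero hfb0),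
      Place.ord_inv]
    ring
  · rw [hsub, Finsupp.sub_apply, hra, hrb, ← hwab, Q.ord_mul hw hbb0]
    ring
  · have e1 : (w : LaurentSeries kA) = coeffMap πA a / coeffMap πA b := (eq_div_iff hb0).2 hrel
    have e2 : ((zab / zbb : FbA) : LaurentSeries kA) = coeffMap πA za / coeffMap πA zb := rfl
    rw [e1, e2]
    exact hza'.div hzb'
  · rw [map_sub, hsub, Finsupp.sub_apply, hTa, hTb, div_eq_mul_inv,
      Q.ord_mul hzab0 (inv_ne_zero hzbb0), Place.ord_inv]
    ring

variable (h49 : 4 ∣ M ∨ 9 ∣ M) (h : ReductionInputsModL A M)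

include hA hℓM h49 in
/-- **[HK-U]**, divisor form : `T_m` preserves the divisors of degree `0` with `r_* Z = 0`. -/
theorem mapDomain_TDiv_eq_zero_of_degree (m : Nat.Primes) (hm : ¬ (m : ℕ) ∣ M)
    {Z : Divisor Kb (FN M)} (hdeg : Divisor.degree Z = 0)
    (hZ : Z.mapDomain (placeReductionModL h) = 0) :
    haveI : NeZero (m : ℕ) := ⟨m.2.ne_zero⟩
    Finsupp.mapDomain (placeReductionModL h) (TDiv M m Z) = 0 := by
  have : NeZero (m : ℕ) := ⟨m.2.ne_zero⟩
  have : IsAlgClosed kA := GalEq.isAlgClosed_residueField A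
  have G := MAZ.good_placeReductionModL M A hA hℓM h49 h
  have hrr := isPlaceReductionModL_placeReductionModL h
  have hΦ : ((Finsupp.mapDomain.addMonoidHom (placeReductionModL h)).comp (TDiv M m)) Z = 0 := by
    refine MAZ.eq_zero_of_bounded G _ ((m : ℕ) + 1) ?_ ?_ hdeg hZ
    · intro P Q
      have h0 : 0 ≤ Finsupp.mapDomain (placeReductionModL h) (TDiv M m (Finsupp.single P 1)) :=
        ES.mapDomain_nonneg _ (TDiv_single_nonneg P)
      have h1 := apply_le_cnt h0 Q
      rw [cnt_mapDomain, cnt_TDiv_single m.2 hm] at h1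
      change |Finsupp.mapDomain (placeReductionModL h) (TDiv M m (Finsupp.single P 1)) Q| ≤ _
      rw [abs_of_nonneg (h0 Q)]
      exact h1
    · intro E hE hE0
      exact MAZ.mapDomain_TDiv_eq_zero m.2 hm hℓM A hA hrr hE hE0
  exact hΦ

variable {M A}

/-- `w` is a non zero function on the special fibre with `div w = n E`, and `y ∈ J₀(M)(ℚ̄)` reduces to the class of `E`. -/
def Rel (n : ℕ) (w : FbA) (y : JZero M) : Prop :=
  w ≠ 0 ∧ ∃ E : Divisor.degZero (K := kA) (F := FbA),
    (∀ Q, (n : ℤ) * (E : Divisor kA FbA) Q = Q.ord w) ∧ reductionModL A M y = Pic0.mk E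

include hA hℓM h49 h in
set_option maxHeartbeats 1600000 in
/-- **[HK-OLD], one step** : the relation `Rel` is compatible with `T^×_m` on functions and `T_m` on `J₀(M)`. -/
theorem Rel.hecke (m : Nat.Primes) (hm : ¬ (m : ℕ) ∣ M) {n : ℕ} {w : FbA} {y : JZero M}
    (hR : Rel n w y) :
    haveI : NeZero (m : ℕ) := ⟨m.2.ne_zero⟩
    ∃ z : FbA, FormalT (m : ℕ) (zetaK (m : ℕ) πA) (w : LaurentSeries kA) (z : LaurentSeries kA) ∧
      Rel n z (heckeOperatorBar M m y) := by
  have : NeZero (m : ℕ) := ⟨m.2.ne_zero⟩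
  have hrr := isPlaceReductionModL_placeReductionModL h
  have hx : IsSepParam Kb (jF M) := isSepParam_jF' M
  obtain ⟨hw, E, hE, hy⟩ := hR
  obtain ⟨E₀, rfl⟩ := Pic0.mk_surjective y
  rw [reductionModL_mk h, Pull.mk_eq_mk_iff] at hy
  obtain ⟨u, hu0, hu⟩ := hy
  obtain ⟨D₂, hD₂p, hD₂r, -⟩ := exists_div_lift M A hA hℓM m.2 hm hrr u hu0
  obtain ⟨Dw, hDwp, hDwr, z, hz0, hzF, hzT⟩ := exists_div_lift M A hA hℓM m.2 hm hrr w hw
  have hsub : ∀ X Y : Divisor Kb (FN M), Finsupp.mapDomain (placeReductionModL h) (X - Y) =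
      Finsupp.mapDomain (placeReductionModL h) X - Finsupp.mapDomain (placeReductionModL h) Y :=
    fun X Y => map_sub (Finsupp.mapDomain.addMonoidHom (placeReductionModL h)) X Y
  have hsmul : ∀ (c : ℕ) (X : Divisor Kb (FN M)), Finsupp.mapDomain (placeReductionModL h) (c • X) =
      c • Finsupp.mapDomain (placeReductionModL h) X :=
    fun c X => map_nsmul (Finsupp.mapDomain.addMonoidHom (placeReductionModL h)) c X
  set E₁ : Divisor.degZero (K := Kb) (F := FN M) :=
    E₀ - ⟨D₂, Divisor.mem_degZero.2 (hx.degree_eq_zero_of_isPrincipal hD₂p)⟩ with hE₁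
  have hE₁c : (E₁ : Divisor Kb (FN M)) = (E₀ : Divisor Kb (FN M)) - D₂ := rfl
  have hmk : Pic0.mk E₀ = Pic0.mk E₁ := by
    rw [Pull.mk_eq_mk_iff, hE₁c, sub_sub_cancel]
    exact hD₂p
  have hrE : Finsupp.mapDomain (placeReductionModL h) (E₁ : Divisor Kb (FN M)) =
      (E : Divisor kA FbA) := by
    ext Q
    have h1 := hu Q
    rw [Finsupp.sub_apply, coe_reductionDegZeroAlong] at h1
    rw [hE₁c, hsub, Finsupp.sub_apply, hD₂r]
    omega
  have hZ0 : Finsupp.mapDomain (placeReductionModL h) (Dw - n • (E₁ : Divisor Kb (FN M))) = 0 := by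
    ext Q
    rw [hsub, hsmul, hrE, Finsupp.sub_apply, Finsupp.smul_apply, hDwr, ← hE Q, nsmul_eq_mul,
      Finsupp.zero_apply, sub_self]
  have hZd : Divisor.degree (Dw - n • (E₁ : Divisor Kb (FN M))) = 0 := by
    rw [map_sub, map_nsmul, hx.degree_eq_zero_of_isPrincipal hDwp, Divisor.mem_degZero.1 E₁.2,
      smul_zero, sub_zero]
  have hTZ := mapDomain_TDiv_eq_zero_of_degree M A hA hℓM h49 h m hm hZd hZ0
  rw [map_sub, map_nsmul, hsub, hsmul, sub_eq_zero] at hTZ
  have hT : heckeOperatorBar M m (Pic0.mk E₁) =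
      Pic0.mk (Pic0.degZeroCorrespondence (heckeBetaBar Kb M m) (heckeAlphaBar Kb M m)
        (heckeBetaBarIntegral M m) (heckeAlphaBarIntegral M m)
        (fundamentalIdentityAlong_beta M m) E₁) := by
    change heckeOperatorAlong Kb M m (Pic0.mk E₁) = _
    rw [heckeOperatorAlong_eq' M m]
    rfl
  refine ⟨z, hzF, hz0, reductionDegZeroAlong (placeReductionModL h) hrr.1
    (Pic0.degZeroCorrespondence (heckeBetaBar Kb M m) (heckeAlphaBar Kb M m)
        (heckeBetaBarIntegral M m) (heckeAlphaBarIntegral M m)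
        (fundamentalIdentityAlong_beta M m) E₁), fun Q => ?_, ?_⟩
  · rw [← hzT Q, hTZ, Finsupp.smul_apply, nsmul_eq_mul]
    rfl
  · rw [hmk, hT, reductionModL_mk h]

theorem Rel.ne_zero {n : ℕ} {w : FbA} {y : JZero M} (hR : Rel n w y) : w ≠ 0 := hR.1

theorem Rel.mul {n : ℕ} {w w' : FbA} {y y' : JZero M} (hR : Rel n w y) (hR' : Rel n w' y') :
    Rel n (w * w') (y + y') := by
  obtain ⟨hw, E, hE, hy⟩ := hR
  obtain ⟨hw', E', hE', hy'⟩ := hR'
  refine ⟨mul_ne_zero hw hw', E + E', fun Q => ?_, ?_⟩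
  · rw [Q.ord_mul hw hw', ← hE, ← hE']
    show (n : ℤ) * ((E : Divisor kA FbA) + (E' : Divisor kA FbA)) Q = _
    rw [Finsupp.add_apply, mul_add]
  · rw [map_add, hy, hy', Pic0.mk_add]

theorem Rel.inv {n : ℕ} {w : FbA} {y : JZero M} (hR : Rel n w y) : Rel n w⁻¹ (-y) := by
  obtain ⟨hw, E, hE, hy⟩ := hR
  refine ⟨inv_ne_zero hw, -E, fun Q => ?_, ?_⟩
  · rw [Place.ord_inv, ← hE]
    show (n : ℤ) * (-(E : Divisor kA FbA)) Q = _
    rw [Finsupp.neg_apply, mul_neg]
  · rw [map_neg, hy]
    rfl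

theorem Rel.pow {n : ℕ} {w : FbA} {y : JZero M} (hR : Rel n w y) (j : ℕ) :
    Rel n (w ^ j) (j • y) := by
  obtain ⟨hw, E, hE, hy⟩ := hR
  refine ⟨pow_ne_zero j hw, j • E, fun Q => ?_, ?_⟩
  · rw [Place.ord_pow, ← hE]
    show (n : ℤ) * (j • (E : Divisor kA FbA)) Q = _
    rw [Finsupp.smul_apply, nsmul_eq_mul]
    ring
  · rw [map_nsmul, hy]
    rfl

/-- the class of `E` is determined by `w`. -/
theorem Rel.red_eq {n : ℕ} (hn : n ≠ 0) {w : FbA} {y y' : JZero M} (hR : Rel n w y)
    (hR' : Rel n w y') : reductionModL A M y = reductionModL A M y' := by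
  obtain ⟨-, E, hE, hy⟩ := hR
  obtain ⟨-, E', hE', hy'⟩ := hR'
  have : E = E' := by
    apply Subtype.ext
    ext Q
    have h1 := (hE Q).trans (hE' Q).symm
    exact mul_left_cancel₀ (by exact_mod_cast hn) h1
  rw [hy, hy', this]

include hA hℓM in
/-- constants times `n`-th powers are related to `0`. -/
theorem rel_const_mul_pow (n : ℕ) {c : kA} (hc : c ≠ 0) {u : FbA} (hu : u ≠ 0) :
    Rel n (algebraMap kA FbA c * u ^ n) (0 : JZero M) := by
  have := isAlgClosed_residueField A
  have hxb := isSepParam_jb_residue A M hA hℓM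
  have hc' : algebraMap kA FbA c ≠ 0 := by rw [Ne, map_eq_zero]; exact hc
  refine ⟨mul_ne_zero hc' (pow_ne_zero n hu),
    ⟨dv kA u, Divisor.mem_degZero.2 (hxb.degree_dv u)⟩, fun Q => ?_, ?_⟩
  · rw [Q.ord_mul hc' (pow_ne_zero n hu), Place.ord_algebraMap, Place.ord_pow, zero_add]
    exact congrArg (fun t : ℤ => (n : ℤ) * t) (hxb.dv_apply u Q)
  · rw [map_zero, eq_comm, Pull.mk_eq_zero_iff]
    exact hxb.isPrincipal_dv hu

include hA hℓM in
/-- **[HK-OLD], conclusion** : if `y` reduces to `0` then `w` is a constant times an `n`-th power. -/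
theorem Rel.eq_const_mul_pow {n : ℕ} {w : FbA} {y : JZero M} (hR : Rel n w y)
    (hy0 : reductionModL A M y = 0) :
    ∃ (c : kA) (u : FbA), c ≠ 0 ∧ u ≠ 0 ∧ w = algebraMap kA FbA c * u ^ n := by
  have := isAlgClosed_residueField A
  have hxb := isSepParam_jb_residue A M hA hℓM
  obtain ⟨hw, E, hE, hy⟩ := hR
  rw [hy0, eq_comm, Pull.mk_eq_zero_iff] at hy
  obtain ⟨u, hu0, hu⟩ := hy
  have hord : ∀ Q : Place kA FbA, Q.ord (w / u ^ n) = 0 := by
    intro Q
    rw [div_eq_mul_inv, Q.ord_mul hw (inv_ne_zero (pow_ne_zero n hu0)), Place.ord_inv,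
      Place.ord_pow, ← hE, hu]
    ring
  obtain ⟨c, hc⟩ := hxb.mem_range_of_forall_ord_nonneg (f := w / u ^ n) fun Q => (hord Q).ge
  refine ⟨c, u, ?_, hu0, ?_⟩
  · rintro rfl
    rw [map_zero] at hc
    exact div_ne_zero hw (pow_ne_zero n hu0) hc.symm
  · rw [hc, div_mul_cancel₀ _ (pow_ne_zero n hu0)]

include hA hℓM h49 h in
/-- every class of the special fibre lifts. -/
theorem exists_reduction_eq (E : Divisor.degZero (K := kA) (F := FbA)) :
    ∃ y : JZero M, reductionModL A M y = Pic0.mk E := by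
  have : IsAlgClosed kA := GalEq.isAlgClosed_residueField A
  have G := MAZ.good_placeReductionModL M A hA hℓM h49 h
  have hrr := isPlaceReductionModL_placeReductionModL h
  obtain ⟨s, hs⟩ := G.surj.hasRightInverse
  have hcomp : Finsupp.mapDomain (placeReductionModL h)
      (Finsupp.mapDomain s (E : Divisor kA FbA)) = (E : Divisor kA FbA) := by
    rw [← Finsupp.mapDomain_comp, show placeReductionModL h ∘ s = id from funext hs,
      Finsupp.mapDomain_id]
  have hdeg : Divisor.degree (Finsupp.mapDomain s (E : Divisor kA FbA)) = 0 := by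
    rw [← degree_mapDomain_of_deg_eq hrr.1, hcomp]
    exact Divisor.mem_degZero.1 E.2
  refine ⟨Pic0.mk ⟨_, Divisor.mem_degZero.2 hdeg⟩, ?_⟩
  rw [reductionModL_mk h]
  exact congrArg Pic0.mk (Subtype.ext hcomp)

include hA hℓM h49 h in
/-- a function whose divisor is divisible by `n` is related to some `y`. -/
theorem exists_rel {n : ℕ} (hn : n ≠ 0) {w : FbA} (hw : w ≠ 0)
    (hdiv : ∀ Q : Place kA FbA, (n : ℤ) ∣ Q.ord w) : ∃ y : JZero M, Rel n w y := by
  have := isAlgClosed_residueField A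
  have hxb := isSepParam_jb_residue A M hA hℓM
  have hn' : (n : ℤ) ≠ 0 := by exact_mod_cast hn
  set E : Divisor kA FbA := (dv kA w).mapRange (· / (n : ℤ)) (by simp) with hEdef
  have hE : ∀ Q, (n : ℤ) * E Q = Q.ord w := by
    intro Q
    rw [hEdef, Finsupp.mapRange_apply, hxb.dv_apply]
    exact Int.mul_ediv_cancel' (hdiv Q)
  have hnE : n • E = dv kA w := by
    ext Q
    rw [Finsupp.smul_apply, nsmul_eq_mul, hE, hxb.dv_apply]
  have hdeg : Divisor.degree E = 0 := by
    have h1 := congrArg Divisor.degree hnE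
    rw [map_nsmul, hxb.degree_dv, nsmul_eq_mul] at h1
    exact (mul_eq_zero.1 h1).resolve_left hn'
  obtain ⟨y, hy⟩ := exists_reduction_eq hA hℓM h49 h ⟨E, Divisor.mem_degZero.2 hdeg⟩
  exact ⟨y, hw, _, hE, hy⟩

end Good

end

end Fermat.Agent.HK
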